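import Fermat.Agent.PrimeNumberTheorem.Tauberian
import Mathlib.MeasureTheory.Function.JacobianOneDim
import Mathlib.NumberTheory.LSeries.PrimesInAP
import Mathlib.NumberTheory.LSeries.SumCoeff
import Mathlib.NumberTheory.Chebyshev

/-!
# The prime number theorem in progressions

The Laplace transform of `S (e ^ t) e ^ (-t) - 1 / φ(q)`, `S` the sum of `Λ` over the class, is
`(A (z + 1) - 1 / φ(q)) / (z + 1)` with Mathlib's `A = LFunctionResidueClassAux`, holomorphic
near `re z ≥ 0`. So `∫₁^∞ (S x - x / φ q) / x ^ 2` converges, and `S` is increasing.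
-/

set_option autoImplicit false
set_option linter.unusedSectionVars false

noncomputable section

namespace FA.PNT

open MeasureTheory Set Filter Complex DirichletCharacter
open scoped Topology Real ArithmeticFunction.vonMangoldt

variable {q : ℕ} [NeZero q] (a : ZMod q)

/-- `∑ Λ n`, `n ≤ x` in the class `a`. -/
def psiClass (x : ℝ) : ℝ :=
  ∑ n ∈ Finset.Icc 1 ⌊x⌋₊, ArithmeticFunction.vonMangoldt.residueClass a n

/-- `∑ log p`, `p ≤ x` prime in the class `a`. -/
def thetaClass (x : ℝ) : ℝ :=
  ∑ p ∈ (Finset.Icc 1 ⌊x⌋₊).filter (fun p : ℕ => p.Prime ∧ (p : ZMod q) = a), Real.log p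

/-- The number of primes `≤ x` in the class `a`. -/
def piClass (x : ℝ) : ℝ :=
  ((Finset.Icc 1 ⌊x⌋₊).filter (fun p : ℕ => p.Prime ∧ (p : ZMod q) = a)).card

theorem psiClass_mono : Monotone (psiClass a) := fun _ _ h =>
  Finset.sum_le_sum_of_subset_of_nonneg (Finset.Icc_subset_Icc_right (Nat.floor_le_floor h))
    fun n _ _ => ArithmeticFunction.vonMangoldt.residueClass_nonneg a n

theorem psiClass_nonneg (x : ℝ) : 0 ≤ psiClass a x :=
  Finset.sum_nonneg fun n _ => ArithmeticFunction.vonMangoldt.residueClass_nonneg a n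

theorem psiClass_le_psi (x : ℝ) : psiClass a x ≤ Chebyshev.psi x :=
  Finset.sum_le_sum fun n _ => ArithmeticFunction.vonMangoldt.residueClass_le a n

theorem psiClass_le {x : ℝ} (hx : 0 ≤ x) : psiClass a x ≤ (Real.log 4 + 4) * x :=
  (psiClass_le_psi a x).trans (Chebyshev.psi_le_const_mul_self hx)

/-- The function to which Newman's theorem applies. -/
def errFun (t : ℝ) : ℂ :=
  if 0 ≤ t then
    ((psiClass a (Real.exp t) * Real.exp (-t) - (q.totient : ℝ)⁻¹ : ℝ) : ℂ) else 0

theorem measurable_errFun : Measurable (errFun a) :=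
  Measurable.ite measurableSet_Ici (Complex.measurable_ofReal.comp
    ((((psiClass_mono a).measurable.comp Real.measurable_exp).mul
      (Real.measurable_exp.comp measurable_neg)).sub measurable_const)) measurable_const

theorem norm_errFun_le (t : ℝ) :
    ‖errFun a t‖ ≤ Real.log 4 + 4 + (q.totient : ℝ)⁻¹ := by
  have hc : (0 : ℝ) ≤ (q.totient : ℝ)⁻¹ := by positivity
  have hK : (0 : ℝ) ≤ Real.log 4 + 4 := by
    have := Real.log_nonneg (show (1 : ℝ) ≤ 4 by norm_num)
    linarith
  rw [errFun]
  split_ifs with h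
  · rw [Complex.norm_real, Real.norm_eq_abs]
    refine (abs_sub _ _).trans (add_le_add ?_ (abs_of_nonneg hc).le)
    rw [abs_of_nonneg (mul_nonneg (psiClass_nonneg a _) (Real.exp_pos _).le)]
    calc psiClass a (Real.exp t) * Real.exp (-t)
        ≤ (Real.log 4 + 4) * Real.exp t * Real.exp (-t) :=
          mul_le_mul_of_nonneg_right (psiClass_le a (Real.exp_pos t).le) (Real.exp_pos _).le
      _ = Real.log 4 + 4 := by
          rw [mul_assoc, ← Real.exp_add, add_neg_cancel, Real.exp_zero, mul_one]
  · rw [norm_zero]; positivity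

theorem image_exp_Ioi : Real.exp '' Ioi 0 = Ioi 1 := by
  ext x
  constructor
  · rintro ⟨t, ht, rfl⟩; exact Real.one_lt_exp_iff.mpr ht
  · exact fun hx => ⟨Real.log x, Real.log_pos hx, Real.exp_log (zero_lt_one.trans hx)⟩

open ArithmeticFunction.vonMangoldt in
/-- The transform. -/
theorem laplace_errFun {z : ℂ} (hz : 0 < z.re) :
    ∫ t in Ioi (0 : ℝ), errFun a t * cexp (-z * t) =
      LSeries (fun n => (residueClass a n : ℂ)) (z + 1) / (z + 1) -
        ((q.totient : ℝ)⁻¹ : ℝ) / z := by
  have hz0 : z ≠ 0 := fun h => by simp [h] at hz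
  have hz1 : z + 1 ≠ 0 := fun h => by
    have := congrArg Complex.re h
    simp at this; linarith
  have hO : (fun n : ℕ => ∑ k ∈ Finset.Icc 1 n, residueClass a k) =O[atTop]
      fun n : ℕ => (n : ℝ) ^ (1 : ℝ) := by
    refine Asymptotics.IsBigO.of_bound (Real.log 4 + 4) (Eventually.of_forall fun n => ?_)
    have h := psiClass_le a (Nat.cast_nonneg n)
    rw [psiClass, Nat.floor_natCast] at h
    rw [Real.norm_eq_abs, Real.norm_eq_abs, Real.rpow_one, Nat.abs_cast,
      abs_of_nonneg (Finset.sum_nonneg fun k _ => residueClass_nonneg a k)]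
    exact h
  have hL := LSeries_eq_mul_integral_of_nonneg (residueClass a) zero_le_one
    (s := z + 1) (by simpa using hz) hO (residueClass_nonneg a)
  have hsub := integral_image_eq_integral_abs_deriv_smul (s := Ioi (0 : ℝ)) (f := Real.exp)
    (f' := Real.exp) measurableSet_Ioi (fun t _ => (Real.hasDerivAt_exp t).hasDerivWithinAt)
    Real.exp_injective.injOn
    (fun x : ℝ => (∑ k ∈ Finset.Icc 1 ⌊x⌋₊, (residueClass a k : ℂ)) * (x : ℂ) ^ (-(z + 1 + 1)))
  rw [image_exp_Ioi] at hsub
  have hexp : IntegrableOn (fun t : ℝ => cexp (-z * t)) (Ioi 0) :=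
    integrableOn_exp_mul_complex_Ioi (by simpa using hz) 0
  have hc : ∫ t in Ioi (0 : ℝ), ((q.totient : ℝ)⁻¹ : ℝ) * cexp (-z * t) =
      ((q.totient : ℝ)⁻¹ : ℝ) / z := by
    rw [integral_const_mul, integral_exp_mul_complex_Ioi (by simpa using hz)]
    simp [div_eq_mul_inv]
  have herr : IntegrableOn (fun t : ℝ => errFun a t * cexp (-z * t)) (Ioi 0) :=
    Integrable.mono' ((exp_neg_integrableOn_Ioi 0 hz).const_mul _)
      (aestronglyMeasurable_kernel (measurable_errFun a) z _)
      (Eventually.of_forall (norm_kernel_le (norm_errFun_le a) z))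
  rw [hL, mul_div_cancel_left₀ _ hz1, hsub, ← hc, eq_sub_iff_add_eq,
    ← integral_add herr (hexp.const_mul _)]
  refine setIntegral_congr_fun measurableSet_Ioi fun t (ht : 0 < t) => ?_
  rw [errFun, if_pos ht.le, abs_of_pos (Real.exp_pos t), psiClass, Complex.real_smul,
    Complex.cpow_def_of_ne_zero (by exact_mod_cast (Real.exp_pos t).ne'),
    ← Complex.ofReal_log (Real.exp_pos t).le, Real.log_exp]
  push_cast
  rw [show ∀ A B Y c : ℂ, (A * B - c) * Y + c * Y = A * (B * Y) from fun A B Y c => by ring,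
    mul_left_comm (cexp (t : ℂ)), ← Complex.exp_add, ← Complex.exp_add]
  congr 2
  ring

open ArithmeticFunction.vonMangoldt in
theorem exists_continuation (ha : IsUnit a) : ∃ (G : ℂ → ℂ) (U : Set ℂ), IsOpen U ∧
    {z : ℂ | 0 ≤ z.re} ⊆ U ∧ DifferentiableOn ℂ G U ∧
    ∀ z : ℂ, 0 < z.re → G z = ∫ t in Ioi (0 : ℝ), errFun a t * cexp (-z * t) := by
  classical
  set V : Set ℂ := {s | LFunctionTrivChar₁ q s ≠ 0 ∧
    (∀ χ : DirichletCharacter ℂ q, χ ≠ 1 → LFunction χ s ≠ 0) ∧ s ≠ 0}
  have hV : IsOpen V := by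
    have h1 : IsOpen {s : ℂ | LFunctionTrivChar₁ q s ≠ 0} :=
      isOpen_ne_fun (differentiable_LFunctionTrivChar₁ q).continuous continuous_const
    have h2 : IsOpen {s : ℂ | ∀ χ : DirichletCharacter ℂ q, χ ≠ 1 → LFunction χ s ≠ 0} := by
      simp only [Set.ofPred_forall]
      exact isOpen_iInter_of_finite fun χ => isOpen_iInter_of_finite fun hχ =>
        isOpen_ne_fun (differentiable_LFunction hχ).continuous continuous_const
    exact h1.inter (h2.inter isOpen_ne)
  refine ⟨fun z => (LFunctionResidueClassAux a (z + 1) - ((q.totient : ℝ)⁻¹ : ℝ)) / (z + 1),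
    (fun z => z + 1) ⁻¹' V, hV.preimage (by fun_prop), fun z hz => ?_, ?_, fun z hz => ?_⟩
  · have h1 : 1 ≤ (z + 1).re := by simpa using hz
    refine ⟨?_, fun χ hχ => LFunction_ne_zero_of_one_le_re χ (.inl hχ) h1,
      fun (h : z + 1 = 0) => ?_⟩
    · show LFunctionTrivChar₁ q (z + 1) ≠ 0
      rcases eq_or_ne (z + 1) 1 with h | h
      · rw [h]; exact LFunctionTrivChar₁_apply_one_ne_zero q
      · rw [LFunctionTrivChar₁, Function.update_of_ne h]
        exact mul_ne_zero (sub_ne_zero.mpr h) (LFunction_ne_zero_of_one_le_re 1 (.inr h) h1)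
    · rw [h, Complex.zero_re] at h1; linarith
  · have hA : DifferentiableOn ℂ (LFunctionResidueClassAux a) V := by
      have d1 := (differentiable_LFunctionTrivChar₁ q).differentiableOn (s := V)
      refine DifferentiableOn.const_mul (DifferentiableOn.sub (DifferentiableOn.div
        (d1.deriv hV).neg d1 fun s hs => hs.1) (DifferentiableOn.fun_sum fun χ hχ => ?_)) _
      have hχ' : χ ≠ 1 := by simpa using hχ
      have d2 := (differentiable_LFunction hχ').differentiableOn (s := V)
      exact DifferentiableOn.div ((d2.deriv hV).const_mul _) d2 fun s hs => hs.2.1 χ hχ'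
    exact ((hA.comp (Differentiable.differentiableOn (by fun_prop)) (mapsTo_preimage _ _)).sub_const
      _).div (Differentiable.differentiableOn (by fun_prop)) fun z hz => hz.2.2
  · have hz0 : z ≠ 0 := fun h => by simp [h] at hz
    have hz1 : z + 1 ≠ 0 := fun h => by
      have := congrArg Complex.re h
      simp at this; linarith
    rw [laplace_errFun a hz]
    show (LFunctionResidueClassAux a (z + 1) - ((q.totient : ℝ)⁻¹ : ℝ)) / (z + 1) = _
    rw [eqOn_LFunctionResidueClassAux ha
      (show 1 < (z + 1).re by simpa using hz)]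
    simp only [add_sub_cancel_right]
    push_cast
    field_simp
    ring

/-- `S x e^(-h) - c ≤` the mean of the error on `[log x, log x + h]` `≤ S (x e^h) e^h - c`. -/
theorem psiClass_squeeze {T h : ℝ} (hT : 0 ≤ T) (hh : 0 ≤ h) :
    h * (psiClass a (Real.exp T) * Real.exp (-(T + h)) - (q.totient : ℝ)⁻¹) ≤
      (∫ t in T..T + h, errFun a t).re ∧
    (∫ t in T..T + h, errFun a t).re ≤
      h * (psiClass a (Real.exp (T + h)) * Real.exp (-T) - (q.totient : ℝ)⁻¹) := by
  set F : ℝ → ℝ := fun t => psiClass a (Real.exp t) * Real.exp (-t) - (q.totient : ℝ)⁻¹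
  have e : ∫ t in T..T + h, errFun a t = ((∫ t in T..T + h, F t : ℝ) : ℂ) := by
    rw [← intervalIntegral.integral_ofReal]
    refine intervalIntegral.integral_congr fun t ht => ?_
    rw [uIcc_of_le (by linarith)] at ht
    rw [errFun, if_pos (hT.trans ht.1)]
  rw [e, Complex.ofReal_re]
  have hi : IntervalIntegrable F volume T (T + h) :=
    ((((psiClass_mono a).comp Real.exp_strictMono.monotone).intervalIntegrable).mul_continuousOn
      (by fun_prop)).sub intervalIntegrable_const
  have hconst : ∀ c : ℝ, h * c = ∫ _t in T..T + h, c := fun c => by simp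
  rw [hconst, hconst]
  constructor
  · refine intervalIntegral.integral_mono_on (by linarith) intervalIntegrable_const hi
      fun t ht => sub_le_sub_right (mul_le_mul (psiClass_mono a (Real.exp_le_exp.mpr ht.1))
        (Real.exp_le_exp.mpr (by linarith [ht.2])) (Real.exp_pos _).le (psiClass_nonneg a _)) _
  · refine intervalIntegral.integral_mono_on (by linarith) hi intervalIntegrable_const
      fun t ht => sub_le_sub_right (mul_le_mul (psiClass_mono a (Real.exp_le_exp.mpr ht.2))
        (Real.exp_le_exp.mpr (by linarith [ht.1])) (Real.exp_pos _).le (psiClass_nonneg a _)) _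

/-- **`ψ (x; q, a) ∼ x / φ (q)`.** -/
theorem tendsto_psiClass (ha : IsUnit a) :
    Tendsto (fun x => psiClass a x / x) atTop (𝓝 (q.totient : ℝ)⁻¹) := by
  set c : ℝ := (q.totient : ℝ)⁻¹
  have hc : 0 < c := inv_pos.mpr (Nat.cast_pos.mpr (Nat.totient_pos.mpr (NeZero.pos q)))
  obtain ⟨G, U, hU, hUs, hG, heq⟩ := exists_continuation a ha
  have hlim := newman (measurable_errFun a) (norm_errFun_le a) hU hUs hG heq
  have hgap : ∀ h : ℝ, Tendsto (fun T => (∫ t in T..T + h, errFun a t).re) atTop (𝓝 0) :=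
    fun h => by
    have h1 := ((hlim.comp (tendsto_atTop_add_const_right _ h tendsto_id)).sub hlim)
    rw [sub_self] at h1
    have h2 := (Complex.continuous_re.tendsto 0).comp h1
    rw [Complex.zero_re] at h2
    refine h2.congr fun T => ?_
    have hi : ∀ u v : ℝ, IntervalIntegrable (errFun a) volume u v := fun u v =>
      (intervalIntegrable_const (c := Real.log 4 + 4 + c)).mono_fun'
        (measurable_errFun a).aestronglyMeasurable (Eventually.of_forall (norm_errFun_le a))
    simp only [Function.comp, id_eq]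
    rw [intervalIntegral.integral_interval_sub_left (hi 0 (T + h)) (hi 0 T)]
  have hr : Tendsto (fun T => psiClass a (Real.exp T) * Real.exp (-T)) atTop (𝓝 c) := by
    refine tendsto_order.mpr ⟨fun b hb => ?_, fun b hb => ?_⟩
    · -- lower bound
      obtain ⟨h, hh, hb'⟩ : ∃ h > 0, b * Real.exp h < c := by
        have : Tendsto (fun h => b * Real.exp h) (𝓝[>] 0) (𝓝 (b * 1)) := by
          refine Tendsto.const_mul _ (Tendsto.mono_left ?_ nhdsWithin_le_nhds)
          simpa using Real.continuous_exp.tendsto 0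
        rw [mul_one] at this
        obtain ⟨h, h1, h2⟩ := ((this.eventually (gt_mem_nhds hb)).and self_mem_nhdsWithin).exists
        exact ⟨h, h2, h1⟩
      filter_upwards [((hgap h).comp (tendsto_atTop_add_const_right _ (-h) tendsto_id)).eventually
        (lt_mem_nhds (show -(h * (c - b * Real.exp h)) < 0 by
          have := mul_pos hh (sub_pos.mpr hb'); linarith)), eventually_ge_atTop h] with T hT hTh
      have h1 := (psiClass_squeeze a (T := T + -h) (by linarith) hh.le).2
      simp only [Function.comp, id_eq] at hT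
      rw [show T + -h + h = T by ring, show -(T + -h) = -T + h by ring, Real.exp_add] at h1
      rw [show T + -h + h = T by ring] at hT
      have h2 := hT.trans_le h1
      by_contra hle
      nlinarith [mul_le_mul_of_nonneg_left (mul_le_mul_of_nonneg_right (not_lt.mp hle)
        (Real.exp_pos h).le) hh.le, show c = (q.totient : ℝ)⁻¹ from rfl]
    · obtain ⟨h, hh, hb'⟩ : ∃ h > 0, c < b * Real.exp (-h) := by
        have : Tendsto (fun h => b * Real.exp (-h)) (𝓝[>] 0) (𝓝 (b * 1)) := by
          refine Tendsto.const_mul _ (Tendsto.mono_left ?_ nhdsWithin_le_nhds)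
          simpa [Function.comp_def] using (Real.continuous_exp.comp continuous_neg).tendsto 0
        rw [mul_one] at this
        obtain ⟨h, h1, h2⟩ := ((this.eventually (lt_mem_nhds hb)).and self_mem_nhdsWithin).exists
        exact ⟨h, h2, h1⟩
      filter_upwards [(hgap h).eventually (gt_mem_nhds (show 0 < h * (b * Real.exp (-h) - c) from
        mul_pos hh (sub_pos.mpr hb'))), eventually_ge_atTop 0] with T hT hT0
      have h1 := (psiClass_squeeze a hT0 hh.le).1
      rw [neg_add, Real.exp_add] at h1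
      have h2 := h1.trans_lt hT
      by_contra hle
      nlinarith [mul_le_mul_of_nonneg_left (mul_le_mul_of_nonneg_right (not_lt.mp hle)
        (Real.exp_pos (-h)).le) hh.le, show c = (q.totient : ℝ)⁻¹ from rfl]
  refine (hr.comp Real.tendsto_log_atTop).congr' ?_
  filter_upwards [eventually_gt_atTop 0] with x hx
  simp [Real.exp_neg, Real.exp_log hx, div_eq_mul_inv]

theorem thetaClass_le_psiClass (x : ℝ) : thetaClass a x ≤ psiClass a x := by
  rw [thetaClass, Finset.sum_filter, psiClass]
  refine Finset.sum_le_sum fun n _ => ?_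
  split_ifs with h
  · rw [ArithmeticFunction.vonMangoldt.residueClass, Set.indicator_of_mem (by exact h.2),
      ArithmeticFunction.vonMangoldt_apply_prime h.1]
  · exact ArithmeticFunction.vonMangoldt.residueClass_nonneg a n

theorem psiClass_sub_thetaClass_le (x : ℝ) :
    psiClass a x - thetaClass a x ≤ Chebyshev.psi x - Chebyshev.theta x := by
  rw [thetaClass, Finset.sum_filter, psiClass, Chebyshev.psi, Chebyshev.theta, Finset.sum_filter,
    ← Finset.sum_sub_distrib, ← Finset.sum_sub_distrib]
  refine Finset.sum_le_sum fun n _ => ?_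
  by_cases hp : n.Prime
  · by_cases hn : (n : ZMod q) = a
    · simp [ArithmeticFunction.vonMangoldt.residueClass, hp, hn,
        ArithmeticFunction.vonMangoldt_apply_prime hp]
    · simp [ArithmeticFunction.vonMangoldt.residueClass, hp, hn,
        ArithmeticFunction.vonMangoldt_apply_prime hp]
  · simp only [hp, false_and, if_false, sub_zero]
    exact ArithmeticFunction.vonMangoldt.residueClass_le a n

/-- **`θ (x; q, a) ∼ x / φ (q)`.** -/
theorem tendsto_thetaClass (ha : IsUnit a) :
    Tendsto (fun x => thetaClass a x / x) atTop (𝓝 (q.totient : ℝ)⁻¹) := by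
  have h0 : Tendsto (fun x : ℝ => (Chebyshev.psi x - Chebyshev.theta x) / x) atTop (𝓝 0) := by
    obtain ⟨C, hC⟩ := Chebyshev.psi_sub_theta_le_mul_sqrt
    refine squeeze_zero' (g := fun x => C / Real.sqrt x) ?_ ?_
      (tendsto_const_nhds.div_atTop Real.tendsto_sqrt_atTop) <;>
      filter_upwards [eventually_gt_atTop 0] with x hx
    · exact div_nonneg (sub_nonneg.mpr (Chebyshev.theta_le_psi x)) hx.le
    · rw [div_le_div_iff₀ hx (Real.sqrt_pos.mpr hx)]
      calc (Chebyshev.psi x - Chebyshev.theta x) * Real.sqrt x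
          ≤ C * Real.sqrt x * Real.sqrt x :=
            mul_le_mul_of_nonneg_right (hC x) (Real.sqrt_nonneg x)
        _ = C * x := by rw [mul_assoc, Real.mul_self_sqrt hx.le]
  have h2 := (tendsto_psiClass a ha).sub h0
  rw [sub_zero] at h2
  refine tendsto_of_tendsto_of_tendsto_of_le_of_le' h2 (tendsto_psiClass a ha) ?_ ?_ <;>
    filter_upwards [eventually_gt_atTop 0] with x hx
  · rw [← sub_div]
    exact div_le_div_of_nonneg_right (by linarith [psiClass_sub_thetaClass_le a x]) hx.le
  · exact div_le_div_of_nonneg_right (thetaClass_le_psiClass a x) hx.le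

theorem thetaClass_le_piClass_mul_log {x : ℝ} (hx : 1 ≤ x) :
    thetaClass a x ≤ piClass a x * Real.log x := by
  rw [thetaClass, piClass, ← nsmul_eq_mul]
  refine Finset.sum_le_card_nsmul _ _ _ fun p hp => ?_
  rw [Finset.mem_filter, Finset.mem_Icc] at hp
  exact Real.log_le_log (by exact_mod_cast hp.2.1.pos)
    ((Nat.cast_le.mpr hp.1.2).trans (Nat.floor_le (by linarith)))

theorem piClass_mul_log_le {x y : ℝ} (hy : 1 ≤ y) :
    piClass a x * Real.log y ≤ thetaClass a x + y * Real.log y := by
  classical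
  set P := (Finset.Icc 1 ⌊x⌋₊).filter (fun p : ℕ => p.Prime ∧ (p : ZMod q) = a)
  have hly : 0 ≤ Real.log y := Real.log_nonneg hy
  have h1 : ((P.filter fun p : ℕ => (p : ℝ) ≤ y).card : ℝ) ≤ y := by
    refine le_trans (Nat.cast_le.mpr ((Finset.card_le_card
      (t := Finset.Icc 1 ⌊y⌋₊) fun p hp => ?_).trans_eq (Nat.card_Icc _ _))) ?_
    · simp only [P, Finset.mem_filter, Finset.mem_Icc] at hp ⊢
      exact ⟨hp.1.1.1, Nat.le_floor hp.2⟩
    · simpa using Nat.floor_le (by linarith : 0 ≤ y)
  have h2 : ((P.filter fun p : ℕ => ¬(p : ℝ) ≤ y).card : ℝ) * Real.log y ≤ thetaClass a x := by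
    rw [← nsmul_eq_mul, ← Finset.sum_const, thetaClass]
    refine (Finset.sum_le_sum fun p hp => ?_).trans (Finset.sum_le_sum_of_subset_of_nonneg
      (Finset.filter_subset _ _) fun p _ _ => Real.log_natCast_nonneg p)
    rw [Finset.mem_filter, not_le] at hp
    exact Real.log_le_log (by linarith) hp.2.le
  have h3 := Finset.card_filter_add_card_filter_not (s := P) (fun p : ℕ => (p : ℝ) ≤ y)
  have h4 : piClass a x = ((P.filter fun p : ℕ => (p : ℝ) ≤ y).card : ℝ) +
      (P.filter fun p : ℕ => ¬(p : ℝ) ≤ y).card := by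
    rw [piClass, ← Nat.cast_add, h3]
  rw [h4, add_mul]
  nlinarith [mul_le_mul_of_nonneg_right h1 hly]

/-- **`π (x; q, a) ∼ x / (φ (q) log x)`.** -/
theorem tendsto_piClass (ha : IsUnit a) :
    Tendsto (fun x => piClass a x * Real.log x / x) atTop (𝓝 (q.totient : ℝ)⁻¹) := by
  set c : ℝ := (q.totient : ℝ)⁻¹
  have hθ := tendsto_thetaClass a ha
  refine tendsto_order.mpr ⟨fun b hb => ?_, fun b hb => ?_⟩
  · filter_upwards [hθ.eventually (lt_mem_nhds hb), eventually_ge_atTop 1] with x hx hx1
    exact hx.trans_le (div_le_div_of_nonneg_right (thetaClass_le_piClass_mul_log a hx1)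
      (by linarith))
  · have hc : 0 ≤ c := inv_nonneg.mpr (Nat.cast_nonneg _)
    have hb0 : 0 < b := hc.trans_lt hb
    obtain ⟨ε, hε, hε1, hcb⟩ : ∃ ε : ℝ, 0 < ε ∧ ε < 1 ∧ c < (1 - ε) * b := by
      refine ⟨(b - c) / (2 * b), div_pos (by linarith) (by linarith), ?_, ?_⟩
      · rw [div_lt_one (by linarith)]; linarith
      · rw [one_sub_mul, div_mul_eq_mul_div, mul_comm 2 b, ← div_div,
          mul_div_cancel_right₀ _ hb0.ne']
        linarith
    have hy : Tendsto (fun x : ℝ => x ^ (1 - ε) * Real.log (x ^ (1 - ε)) / x) atTop (𝓝 0) := by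
      have h := ((isLittleO_log_rpow_atTop hε).tendsto_div_nhds_zero).const_mul (1 - ε)
      rw [mul_zero] at h
      refine h.congr' ?_
      filter_upwards [eventually_gt_atTop 0] with x hx
      rw [Real.log_rpow hx, Real.rpow_sub hx, Real.rpow_one]
      field_simp
    have hsum := hθ.add hy
    rw [add_zero] at hsum
    filter_upwards [hsum.eventually (gt_mem_nhds hcb), eventually_ge_atTop 1] with x hx hx1
    have hx0 : 0 < x := by linarith
    have h1 := piClass_mul_log_le a (x := x) (Real.one_le_rpow hx1 (by linarith : 0 ≤ 1 - ε))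
    rw [Real.log_rpow hx0] at h1 hx
    rw [← add_div, div_lt_iff₀ hx0] at hx
    rw [div_lt_iff₀ hx0]
    nlinarith

/-- **Primes in short intervals.** -/
theorem eventually_exists_prime (ha : IsUnit a) {ε : ℝ} (hε : 0 < ε) :
    ∀ᶠ x : ℝ in atTop, ∃ p : ℕ, p.Prime ∧ (p : ZMod q) = a ∧ x < p ∧ (p : ℝ) ≤ (1 + ε) * x := by
  set c : ℝ := (q.totient : ℝ)⁻¹
  have hc : 0 < c := inv_pos.mpr (Nat.cast_pos.mpr (Nat.totient_pos.mpr (NeZero.pos q)))
  have hθ := tendsto_thetaClass a ha
  have h1 := hθ.comp (tendsto_id.const_mul_atTop (show (0 : ℝ) < 1 + ε by linarith))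
  have hd : 0 < c * ε / (2 * (2 + ε)) := by positivity
  filter_upwards [hθ.eventually (gt_mem_nhds (lt_add_of_pos_right c hd)),
    h1.eventually (lt_mem_nhds (sub_lt_self c hd)), eventually_gt_atTop 0] with x hx1 hx2 hx0
  simp only [Function.comp, id_eq] at hx2
  rw [div_lt_iff₀ hx0] at hx1
  rw [lt_div_iff₀ (by positivity)] at hx2
  by_contra hno
  push Not at hno
  have hle : thetaClass a ((1 + ε) * x) ≤ thetaClass a x := by
    refine Finset.sum_le_sum_of_subset_of_nonneg (fun p hp => ?_) fun p _ _ =>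
      Real.log_natCast_nonneg p
    simp only [Finset.mem_filter, Finset.mem_Icc] at hp ⊢
    refine ⟨⟨hp.1.1, Nat.le_floor ?_⟩, hp.2⟩
    by_contra hxp
    have h3 : (p : ℝ) ≤ (1 + ε) * x :=
      (Nat.cast_le.mpr hp.1.2).trans (Nat.floor_le (by positivity))
    linarith [hno p hp.2.1 hp.2.2 (not_le.mp hxp)]
  have h4 : c * ε / (2 * (2 + ε)) * (2 + ε) = c * ε / 2 := by field_simp
  have h5 := congrArg (· * x) h4
  have h6 : 0 < c * ε * x := by positivity
  nlinarith

end FA.PNT

end
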