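import Mathlib.Analysis.Complex.CauchyIntegral
import Mathlib.Analysis.Complex.RemovableSingularity
import Mathlib.Analysis.SpecialFunctions.ImproperIntegrals
import Mathlib.Analysis.SpecialFunctions.Integrals.Basic
import Mathlib.Analysis.SpecialFunctions.Trigonometric.Arctan
import Mathlib.Analysis.Calculus.ParametricIntervalIntegral
import Mathlib.MeasureTheory.Integral.ExpDecay

/-!
# Newman's tauberian theorem

If `f` is bounded on `t > 0` and its Laplace transform has a continuation `G` holomorphic near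
`re z ≥ 0`, then `∫₀ᵀ f → G 0` (Newman 1980, Zagier 1997). The contour is a rectangle.
-/

set_option autoImplicit false

noncomputable section

namespace FA.PNT

open MeasureTheory Set Filter Complex
open scoped Interval Topology Real

/-- The integral of `F` over the boundary of `[a, b] × [-R, R]`. -/
def rectInt (F : ℂ → ℂ) (a b R : ℝ) : ℂ :=
  (∫ x : ℝ in a..b, F (x + (-R : ℝ) * I)) - (∫ x : ℝ in a..b, F (x + (R : ℝ) * I)) +
    I * (∫ y : ℝ in -R..R, F (b + y * I)) - I * ∫ y : ℝ in -R..R, F (a + y * I)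

theorem rectInt_eq_zero {F : ℂ → ℂ} {a b R : ℝ}
    (h : DifferentiableOn ℂ F ([[a, b]] ×ℂ [[-R, R]])) : rectInt F a b R = 0 := by
  simpa [rectInt, smul_eq_mul] using
    integral_boundary_rect_eq_zero_of_differentiableOn F ((a : ℂ) + (-R : ℝ) * I)
      ((b : ℂ) + (R : ℝ) * I) (by simpa using h)

theorem continuous_inv_horizontal {R : ℝ} (hR : R ≠ 0) :
    Continuous fun x : ℝ => ((x : ℂ) + (R : ℂ) * I)⁻¹ :=
  Continuous.inv₀ (by fun_prop) fun x h => hR (by simpa using congrArg Complex.im h)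

theorem continuous_inv_vertical {b : ℝ} (hb : b ≠ 0) :
    Continuous fun y : ℝ => ((b : ℂ) + (y : ℂ) * I)⁻¹ :=
  Continuous.inv₀ (by fun_prop) fun x h => hb (by simpa using congrArg Complex.re h)

theorem integral_div_sq_add_sq {b : ℝ} (hb : b ≠ 0) (u v : ℝ) :
    ∫ y : ℝ in u..v, b / (b ^ 2 + y ^ 2) = Real.arctan (v / b) - Real.arctan (u / b) := by
  refine intervalIntegral.integral_eq_sub_of_hasDerivAt (E := ℝ)
    (f := fun y => Real.arctan (y / b)) (fun y _ => ?_) ?_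
  · convert! ((hasDerivAt_id' y).div_const b).arctan using 1
    field_simp
  · refine Continuous.intervalIntegrable ?_ _ _
    exact Continuous.div continuous_const (by fun_prop) fun y => by positivity

/-- The winding number of a rectangle around `0`. -/
theorem rectInt_inv {a b R : ℝ} (ha : a < 0) (hb : 0 < b) (hR : 0 < R) :
    rectInt (fun z => z⁻¹) a b R = 2 * π * I := by
  have hv : ∀ c : ℝ, c ≠ 0 → ∫ y : ℝ in -R..R, ((c : ℂ) + (y : ℂ) * I)⁻¹ =
      ((2 * Real.arctan (R / c) : ℝ) : ℂ) := fun c hc => by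
    have hi := (continuous_inv_vertical hc).intervalIntegrable (μ := volume) (-R) R
    have hi' : IntervalIntegrable (fun y : ℝ => ((c : ℂ) + ((-y : ℝ) : ℂ) * I)⁻¹) volume (-R) R :=
      ((continuous_inv_vertical hc).comp continuous_neg).intervalIntegrable _ _
    have h1 : ∫ y : ℝ in -R..R, ((c : ℂ) + ((-y : ℝ) : ℂ) * I)⁻¹ =
        ∫ y : ℝ in -R..R, ((c : ℂ) + (y : ℂ) * I)⁻¹ := by
      rw [intervalIntegral.integral_comp_neg fun y : ℝ => ((c : ℂ) + (y : ℂ) * I)⁻¹, neg_neg]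
    have h2 : ∫ y : ℝ in -R..R, (((c : ℂ) + (y : ℂ) * I)⁻¹ + ((c : ℂ) + ((-y : ℝ) : ℂ) * I)⁻¹) =
        ∫ y : ℝ in -R..R, ((2 * (c / (c ^ 2 + y ^ 2)) : ℝ) : ℂ) := by
      refine intervalIntegral.integral_congr fun y _ => ?_
      have n1 : (c : ℂ) + (y : ℂ) * I ≠ 0 := fun h => hc (by simpa using congrArg Complex.re h)
      have n2 : (c : ℂ) + ((-y : ℝ) : ℂ) * I ≠ 0 := fun h =>
        hc (by simpa using congrArg Complex.re h)
      have hcy : (0 : ℝ) < c ^ 2 + y ^ 2 := by positivity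
      have n3 : (c : ℂ) ^ 2 + (y : ℂ) ^ 2 ≠ 0 := by exact_mod_cast hcy.ne'
      push_cast at n2 ⊢
      rw [neg_mul, ← sub_eq_add_neg] at n2 ⊢
      field_simp
      linear_combination (2 * (c : ℂ) * (y : ℂ) ^ 2) * I_sq
    rw [intervalIntegral.integral_add hi hi', h1, intervalIntegral.integral_ofReal,
      intervalIntegral.integral_const_mul, integral_div_sq_add_sq hc, neg_div,
      Real.arctan_neg] at h2
    push_cast at h2 ⊢
    linear_combination h2 / 2
  have hh : (∫ x : ℝ in a..b, ((x : ℂ) + ((-R : ℝ) : ℂ) * I)⁻¹) -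
      (∫ x : ℝ in a..b, ((x : ℂ) + (R : ℂ) * I)⁻¹) =
      2 * I * ((Real.arctan (b / R) - Real.arctan (a / R) : ℝ) : ℂ) := by
    rw [← intervalIntegral.integral_sub
      ((continuous_inv_horizontal (neg_ne_zero.mpr hR.ne')).intervalIntegrable _ _)
      ((continuous_inv_horizontal hR.ne').intervalIntegrable _ _),
      ← integral_div_sq_add_sq hR.ne', ← intervalIntegral.integral_ofReal,
      ← intervalIntegral.integral_const_mul]
    refine intervalIntegral.integral_congr fun x _ => ?_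
    have n1 : (x : ℂ) + (R : ℂ) * I ≠ 0 := fun h => hR.ne' (by simpa using congrArg Complex.im h)
    have n2 : (x : ℂ) + ((-R : ℝ) : ℂ) * I ≠ 0 := fun h =>
      hR.ne' (by simpa using congrArg Complex.im h)
    have hxy : (0 : ℝ) < R ^ 2 + x ^ 2 := by positivity
    have n3 : (R : ℂ) ^ 2 + (x : ℂ) ^ 2 ≠ 0 := by exact_mod_cast hxy.ne'
    push_cast at n2 ⊢
    rw [neg_mul, ← sub_eq_add_neg] at n2 ⊢
    field_simp
    linear_combination (2 * (R : ℂ) ^ 3 * I) * I_sq
  have e1 := Real.arctan_inv_of_pos (div_pos hb hR)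
  have e2 := Real.arctan_inv_of_neg (div_neg_of_neg_of_pos ha hR)
  rw [inv_div] at e1 e2
  rw [rectInt, hv b hb.ne', hv a ha.ne, hh, e1, e2]
  push_cast
  ring

/-- **Cauchy's formula** for a rectangle around `0`. -/
theorem rectInt_cauchy {H : ℂ → ℂ} {U : Set ℂ} (hU : IsOpen U) (hH : DifferentiableOn ℂ H U)
    {a b R : ℝ} (ha : a < 0) (hb : 0 < b) (hR : 0 < R) (hsub : [[a, b]] ×ℂ [[-R, R]] ⊆ U) :
    rectInt (fun z => H z * z⁻¹) a b R = 2 * π * I * H 0 := by
  have h0 : (0 : ℂ) ∈ U := hsub ⟨by simp [mem_uIcc]; exact Or.inl ⟨ha.le, hb.le⟩,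
    by simp [mem_uIcc]; exact Or.inl hR.le⟩
  have hd : DifferentiableOn ℂ (dslope H 0) U :=
    (Complex.differentiableOn_dslope (hU.mem_nhds h0)).mpr hH
  have hz := rectInt_eq_zero (F := dslope H 0) (hd.mono hsub)
  have hi : ∀ {F : ℂ → ℂ}, ContinuousOn F U →
      ∀ {γ : ℝ → ℂ}, Continuous γ → ∀ {u v : ℝ}, (∀ x ∈ [[u, v]], γ x ∈ U) →
      IntervalIntegrable (fun x => F (γ x)) volume u v := fun hF _ hγ _ _ hm =>
    (hF.comp hγ.continuousOn hm).intervalIntegrable
  have hhor : ∀ c ∈ [[-R, R]], c ≠ 0 → (∫ x : ℝ in a..b, H (x + c * I) * ((x : ℂ) + c * I)⁻¹) =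
      (∫ x : ℝ in a..b, dslope H 0 (x + c * I)) +
        H 0 * ∫ x : ℝ in a..b, ((x : ℂ) + c * I)⁻¹ := fun c hc hc0 => by
    rw [← intervalIntegral.integral_const_mul, ← intervalIntegral.integral_add
      (hi hd.continuousOn (by fun_prop) fun x hx => hsub ⟨by simpa using hx, by simpa using hc⟩)
      (((continuous_inv_horizontal hc0).const_mul (H 0)).intervalIntegrable _ _)]
    refine intervalIntegral.integral_congr fun x _ => ?_
    have hne : (x : ℂ) + c * I ≠ 0 := fun h => hc0 (by simpa using congrArg Complex.im h)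
    rw [dslope_of_ne _ hne, slope_def_field, sub_zero]
    field_simp
    ring
  have hver : ∀ c ∈ [[a, b]], c ≠ 0 → (∫ y : ℝ in -R..R, H (c + y * I) * ((c : ℂ) + y * I)⁻¹) =
      (∫ y : ℝ in -R..R, dslope H 0 (c + y * I)) +
        H 0 * ∫ y : ℝ in -R..R, ((c : ℂ) + y * I)⁻¹ := fun c hc hc0 => by
    rw [← intervalIntegral.integral_const_mul, ← intervalIntegral.integral_add
      (hi hd.continuousOn (by fun_prop) fun x hx => hsub ⟨by simpa using hc, by simpa using hx⟩)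
      (((continuous_inv_vertical hc0).const_mul (H 0)).intervalIntegrable _ _)]
    refine intervalIntegral.integral_congr fun x _ => ?_
    have hne : (c : ℂ) + x * I ≠ 0 := fun h => hc0 (by simpa using congrArg Complex.re h)
    rw [dslope_of_ne _ hne, slope_def_field, sub_zero]
    field_simp
    ring
  have hw := rectInt_inv ha hb hR
  simp only [rectInt] at hz hw ⊢
  rw [hhor (-R) left_mem_uIcc (neg_ne_zero.mpr hR.ne'), hhor R right_mem_uIcc hR.ne',
    hver b right_mem_uIcc hb.ne', hver a left_mem_uIcc ha.ne]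
  linear_combination hz + H 0 * hw

variable {f : ℝ → ℂ} {M : ℝ}

/-- The truncated transform. -/
def trunc (f : ℝ → ℂ) (T : ℝ) (z : ℂ) : ℂ := ∫ t in (0 : ℝ)..T, f t * cexp (-z * t)

theorem aestronglyMeasurable_kernel (hf : Measurable f) (z : ℂ) (μ : Measure ℝ) :
    AEStronglyMeasurable (fun t : ℝ => f t * cexp (-z * t)) μ :=
  (hf.mul (Continuous.measurable (by fun_prop))).aestronglyMeasurable

theorem norm_kernel_le (hM : ∀ t, ‖f t‖ ≤ M) (z : ℂ) (t : ℝ) :
    ‖f t * cexp (-z * t)‖ ≤ M * Real.exp (-z.re * t) := by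
  rw [norm_mul, Complex.norm_exp]
  refine mul_le_mul (hM t) (le_of_eq ?_) (Real.exp_pos _).le ((norm_nonneg _).trans (hM t))
  simp

theorem differentiable_trunc (hf : Measurable f) (hM : ∀ t, ‖f t‖ ≤ M) {T : ℝ} (hT : 0 ≤ T) :
    Differentiable ℂ (trunc f T) := by
  intro z₀
  have hM0 : 0 ≤ M := (norm_nonneg _).trans (hM 0)
  set B := M * Real.exp ((‖z₀‖ + 1) * T)
  have hexp : ∀ z : ℂ, ‖z‖ ≤ ‖z₀‖ + 1 → ∀ t ∈ Ι (0 : ℝ) T, ‖f t * cexp (-z * t)‖ ≤ B := by
    intro z hz t ht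
    rw [uIoc_of_le hT] at ht
    refine (norm_kernel_le hM z t).trans (mul_le_mul_of_nonneg_left ?_ hM0)
    refine Real.exp_le_exp.mpr ?_
    calc -z.re * t ≤ ‖z‖ * t :=
          mul_le_mul_of_nonneg_right ((neg_le_abs _).trans (Complex.abs_re_le_norm z)) ht.1.le
      _ ≤ (‖z₀‖ + 1) * T := mul_le_mul hz ht.2 ht.1.le (by positivity)
  refine (intervalIntegral.hasDerivAt_integral_of_dominated_loc_of_deriv_le
    (μ := volume) (F := fun z (t : ℝ) => f t * cexp (-z * t))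
    (F' := fun z (t : ℝ) => -(t : ℂ) * (f t * cexp (-z * t))) (bound := fun _ => T * B)
    (Metric.ball_mem_nhds z₀ one_pos) (Eventually.of_forall fun z =>
      aestronglyMeasurable_kernel hf z _) ?_ ?_ ?_ intervalIntegrable_const ?_).2.differentiableAt
  · exact (intervalIntegrable_const (c := B)).mono_fun' (aestronglyMeasurable_kernel hf z₀ _)
      ((ae_restrict_iff' measurableSet_uIoc).mpr (Eventually.of_forall fun t ht =>
        hexp z₀ (by linarith) t ht))
  · exact ((Continuous.aestronglyMeasurable (by fun_prop)).mul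
      (aestronglyMeasurable_kernel hf z₀ _))
  · refine Eventually.of_forall fun t ht z hz => ?_
    rw [norm_mul, norm_neg, Complex.norm_real, Real.norm_eq_abs]
    rw [uIoc_of_le hT] at ht
    refine mul_le_mul (by rw [abs_of_pos ht.1]; exact ht.2) (hexp z ?_ t ?_) (norm_nonneg _) hT
    · have := norm_sub_norm_le z z₀
      rw [Metric.mem_ball, dist_eq_norm] at hz
      linarith
    · rw [uIoc_of_le hT]; exact ht
  · refine Eventually.of_forall fun t _ z _ => ?_
    have h := (((hasDerivAt_id' z).neg.mul_const (t : ℂ)).cexp).const_mul (f t)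
    convert! h using 1
    simp only [Pi.neg_apply]
    ring

theorem norm_trunc_le (hM : ∀ t, ‖f t‖ ≤ M) {T : ℝ} (hT : 0 ≤ T) {z : ℂ} (hz : z.re < 0) :
    ‖trunc f T z‖ ≤ M * Real.exp (-z.re * T) / -z.re := by
  have hM0 : 0 ≤ M := (norm_nonneg _).trans (hM 0)
  have hc : 0 < -z.re := neg_pos.mpr hz
  refine (intervalIntegral.norm_integral_le_of_norm_le hT
    (Eventually.of_forall fun t _ => norm_kernel_le hM z t)
    ((by fun_prop : Continuous fun t : ℝ => M * Real.exp (-z.re * t)).intervalIntegrable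
      _ _)).trans ?_
  rw [intervalIntegral.integral_const_mul,
    intervalIntegral.integral_comp_mul_left (fun t => Real.exp t) hc.ne', integral_exp, mul_zero,
    Real.exp_zero, smul_eq_mul, mul_div_assoc]
  refine mul_le_mul_of_nonneg_left ?_ hM0
  rw [inv_mul_eq_div]
  exact div_le_div_of_nonneg_right (by linarith) hc.le

theorem norm_transform_sub_trunc_le (hf : Measurable f) (hM : ∀ t, ‖f t‖ ≤ M) {T : ℝ}
    (hT : 0 ≤ T) {z : ℂ} (hz : 0 < z.re) :
    ‖(∫ t in Ioi (0 : ℝ), f t * cexp (-z * t)) - trunc f T z‖ ≤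
      M * Real.exp (-z.re * T) / z.re := by
  have hint : ∀ u : ℝ, IntegrableOn (fun t : ℝ => f t * cexp (-z * t)) (Ioi u) := fun u =>
    Integrable.mono' ((exp_neg_integrableOn_Ioi u hz).const_mul M)
      (aestronglyMeasurable_kernel hf z _) (Eventually.of_forall (norm_kernel_le hM z))
  rw [trunc, ← intervalIntegral.integral_interval_add_Ioi'
    ((intervalIntegrable_iff_integrableOn_Ioc_of_le
    hT).mpr ((hint 0).mono_set Ioc_subset_Ioi_self)) (hint T), add_sub_cancel_left]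
  refine (norm_integral_le_of_norm_le ((exp_neg_integrableOn_Ioi T hz).const_mul M)
    (Eventually.of_forall (norm_kernel_le hM z))).trans (le_of_eq ?_)
  rw [integral_const_mul, integral_exp_mul_Ioi (neg_lt_zero.mpr hz) T, neg_div_neg_eq,
    mul_div_assoc]

/-- The kernel. -/
def ker (R T : ℝ) (z : ℂ) : ℂ := cexp (z * T) * (1 + z ^ 2 / (R : ℂ) ^ 2)

theorem norm_ker (R T : ℝ) (z : ℂ) :
    ‖ker R T z‖ = Real.exp (z.re * T) * ‖1 + z ^ 2 / (R : ℂ) ^ 2‖ := by
  rw [ker, norm_mul, Complex.norm_exp]; simp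

theorem norm_edge_horizontal {R T x s : ℝ} (hR : 0 < R) (hx : |x| ≤ R) (hx0 : x ≠ 0)
    (hs : |s| = R) {M : ℝ} (hM0 : 0 ≤ M) {D : ℂ}
    (hD : ‖D‖ ≤ M * Real.exp (-x * T) / |x|) :
    ‖D * ker R T (x + s * I) * ((x : ℂ) + s * I)⁻¹‖ ≤ 3 * M / R ^ 2 := by
  have hs2 : s ^ 2 = R ^ 2 := by rw [← sq_abs, hs]
  have hk : ‖1 + ((x : ℂ) + s * I) ^ 2 / (R : ℂ) ^ 2‖ ≤ 3 * |x| / R := by
    have hR2 : (R : ℂ) ≠ 0 := by exact_mod_cast hR.ne'
    have hs2' : (s : ℂ) ^ 2 = (R : ℂ) ^ 2 := by exact_mod_cast hs2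
    rw [show 1 + ((x : ℂ) + s * I) ^ 2 / (R : ℂ) ^ 2 =
        ((x : ℂ) * ((x : ℂ) + 2 * s * I)) / (R : ℂ) ^ 2 by
      field_simp
      linear_combination (s : ℂ) ^ 2 * I_sq - hs2']
    rw [norm_div, norm_mul, Complex.norm_real, norm_pow, Complex.norm_real, Real.norm_eq_abs,
      Real.norm_eq_abs, abs_of_pos hR, div_le_div_iff₀ (by positivity) hR]
    have : ‖(x : ℂ) + 2 * s * I‖ ≤ 3 * R := by
      refine (norm_add_le _ _).trans ?_
      rw [norm_mul, norm_mul, Complex.norm_real, Complex.norm_real, Complex.norm_I,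
        Real.norm_eq_abs, Real.norm_eq_abs, hs]
      norm_num
      linarith
    nlinarith [mul_le_mul_of_nonneg_left this (mul_nonneg (abs_nonneg x) hR.le)]
  have hz : R ≤ ‖(x : ℂ) + s * I‖ := by
    have := Complex.abs_im_le_norm ((x : ℂ) + s * I)
    simpa [hs] using this
  rw [norm_mul, norm_mul, norm_ker, norm_inv, show ((x : ℂ) + s * I).re = x by simp]
  have hinv : ‖(x : ℂ) + s * I‖⁻¹ ≤ R⁻¹ := inv_anti₀ hR hz
  calc ‖D‖ * (Real.exp (x * T) * ‖1 + ((x : ℂ) + s * I) ^ 2 / (R : ℂ) ^ 2‖) *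
        ‖(x : ℂ) + s * I‖⁻¹
      ≤ M * Real.exp (-x * T) / |x| * (Real.exp (x * T) * (3 * |x| / R)) * R⁻¹ := by gcongr
    _ = 3 * M / R ^ 2 * (Real.exp (-x * T) * Real.exp (x * T)) := by field_simp
    _ = 3 * M / R ^ 2 := by rw [← Real.exp_add]; simp

theorem norm_edge_vertical {R T c y : ℝ} (hR : 0 < R) (hc : |c| = R) (hy : |y| ≤ R)
    {M : ℝ} (hM0 : 0 ≤ M) {D : ℂ} (hD : ‖D‖ ≤ M * Real.exp (-c * T) / R) :
    ‖D * ker R T (c + y * I) * ((c : ℂ) + y * I)⁻¹‖ ≤ 3 * M / R ^ 2 := by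
  have hk : ‖1 + ((c : ℂ) + y * I) ^ 2 / (R : ℂ) ^ 2‖ ≤ 3 := by
    refine (norm_add_le _ _).trans ?_
    rw [norm_one, norm_div, norm_pow, norm_pow, Complex.norm_real, Real.norm_eq_abs,
      abs_of_pos hR, Complex.sq_norm, Complex.normSq_add_mul_I, ← sq_abs c, hc]
    have h1 : y ^ 2 ≤ R ^ 2 := sq_le_sq.mpr (by rwa [abs_of_pos hR])
    have : (R ^ 2 + y ^ 2) / R ^ 2 ≤ 2 := by rw [div_le_iff₀ (by positivity)]; linarith
    linarith
  have hz : R ≤ ‖(c : ℂ) + y * I‖ := by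
    have := Complex.abs_re_le_norm ((c : ℂ) + y * I)
    simpa [hc] using this
  rw [norm_mul, norm_mul, norm_ker, norm_inv, show ((c : ℂ) + y * I).re = c by simp]
  calc ‖D‖ * (Real.exp (c * T) * ‖1 + ((c : ℂ) + y * I) ^ 2 / (R : ℂ) ^ 2‖) *
        ‖(c : ℂ) + y * I‖⁻¹
      ≤ M * Real.exp (-c * T) / R * (Real.exp (c * T) * 3) * R⁻¹ := by gcongr
    _ = 3 * M / R ^ 2 * (Real.exp (-c * T) * Real.exp (c * T)) := by field_simp
    _ = 3 * M / R ^ 2 := by rw [← Real.exp_add]; simp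

/-- **Newman's theorem.** -/
theorem newman (hf : Measurable f) (hM : ∀ t, ‖f t‖ ≤ M) {G : ℂ → ℂ} {U : Set ℂ}
    (hU : IsOpen U) (hUsub : {z : ℂ | 0 ≤ z.re} ⊆ U) (hG : DifferentiableOn ℂ G U)
    (heq : ∀ z : ℂ, 0 < z.re → G z = ∫ t in Ioi (0 : ℝ), f t * cexp (-z * t)) :
    Tendsto (fun T : ℝ => ∫ t in (0 : ℝ)..T, f t) atTop (𝓝 (G 0)) := by
  have hM0 : 0 ≤ M := (norm_nonneg _).trans (hM 0)
  rw [Metric.tendsto_atTop]
  intro ε hε
  set R := max 1 (48 * (M + 1) / ε)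
  have hR : 0 < R := lt_max_of_lt_left one_pos
  have hRε : 48 * (M + 1) ≤ ε * R := by
    have := le_max_right 1 (48 * (M + 1) / ε)
    rw [div_le_iff₀ hε] at this
    linarith
  -- a rectangle inside `U`
  obtain ⟨δ, hδ, hδR, hbox⟩ : ∃ δ : ℝ, 0 < δ ∧ δ ≤ R ∧ [[-δ, R]] ×ℂ [[-R, R]] ⊆ U := by
    have hc : IsCompact ((fun y : ℝ => (y : ℂ) * I) '' [[-R, R]]) :=
      isCompact_uIcc.image (by fun_prop)
    obtain ⟨d, hd, hthick⟩ := hc.exists_thickening_subset_open hU
      (by rintro _ ⟨y, -, rfl⟩; exact hUsub (by simp))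
    refine ⟨min (d / 2) R, lt_min (half_pos hd) hR, min_le_right _ _, ?_⟩
    rintro z ⟨h1, h2⟩
    rw [mem_preimage, uIcc_of_le (by linarith [lt_min (half_pos hd) hR])] at h1
    rcases le_total 0 z.re with h | h
    · exact hUsub h
    refine hthick (Metric.mem_thickening_iff.mpr ⟨(z.im : ℂ) * I, ⟨z.im, h2, rfl⟩, ?_⟩)
    rw [dist_eq_norm, show z - (z.im : ℂ) * I = (z.re : ℂ) by
      refine Complex.ext ?_ ?_ <;> simp, Complex.norm_real, Real.norm_eq_abs, abs_of_nonpos h]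
    linarith [h1.1, min_le_left (d / 2) R]
  -- a bound for `G (1 + z ^ 2 / R ^ 2) / z` on the left part
  obtain ⟨Bt, hBt⟩ : ∃ B, ∀ s : ℝ, |s| = R → ∀ x ∈ [[-δ, 0]],
      ‖G (x + s * I) * (1 + ((x : ℂ) + s * I) ^ 2 / (R : ℂ) ^ 2) * ((x : ℂ) + s * I)⁻¹‖ ≤ B := by
    have key : ∀ s : ℝ, |s| = R → ∃ B, ∀ x ∈ [[-δ, 0]],
        ‖G (x + s * I) * (1 + ((x : ℂ) + s * I) ^ 2 / (R : ℂ) ^ 2) * ((x : ℂ) + s * I)⁻¹‖ ≤ B :=
      fun s hs => by
      have hs0 : s ≠ 0 := fun h => hR.ne' (by simpa [h] using hs.symm)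
      refine isCompact_uIcc.exists_bound_of_continuousOn (ContinuousOn.mul (ContinuousOn.mul ?_
        (by fun_prop)) (continuous_inv_horizontal hs0).continuousOn)
      refine hG.continuousOn.comp (by fun_prop) fun x hx => hbox ⟨?_, ?_⟩
      · rw [mem_preimage, uIcc_of_le (by linarith)]
        rw [uIcc_of_le (by linarith)] at hx
        simpa using ⟨hx.1, hx.2.trans hR.le⟩
      · rw [mem_preimage, uIcc_of_le (by linarith)]
        simpa [abs_le] using hs.le
    obtain ⟨B₁, h₁⟩ := key R (abs_of_pos hR)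
    obtain ⟨B₂, h₂⟩ := key (-R) (by rw [abs_neg, abs_of_pos hR])
    refine ⟨max B₁ B₂, fun s hs x hx => ?_⟩
    rcases eq_or_eq_neg_of_abs_eq hs with rfl | rfl
    exacts [(h₁ x hx).trans (le_max_left _ _), (h₂ x hx).trans (le_max_right _ _)]
  obtain ⟨Bl, hBl⟩ : ∃ B, ∀ y ∈ [[-R, R]],
      ‖G ((-δ : ℝ) + y * I) * (1 + (((-δ : ℝ) : ℂ) + y * I) ^ 2 / (R : ℂ) ^ 2) *
        (((-δ : ℝ) : ℂ) + y * I)⁻¹‖ ≤ B := by
    refine isCompact_uIcc.exists_bound_of_continuousOn (ContinuousOn.mul (ContinuousOn.mul ?_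
      (by fun_prop)) (continuous_inv_vertical (neg_ne_zero.mpr hδ.ne')).continuousOn)
    exact hG.continuousOn.comp (by fun_prop) fun y hy =>
      hbox ⟨by simp, by simpa using hy⟩
  set Et : ℝ → ℝ := fun T => 2 * |Bt| / T + |Bl| * Real.exp (-δ * T) * (2 * R)
  have hEt : Tendsto Et atTop (𝓝 0) := by
    have h1 : Tendsto (fun T : ℝ => Real.exp (-δ * T)) atTop (𝓝 0) :=
      Real.tendsto_exp_atBot.comp (tendsto_id.const_mul_atTop_of_neg (neg_lt_zero.mpr hδ))
    simpa [Et] using ((tendsto_const_nhds (x := 2 * |Bt|)).div_atTop tendsto_id).add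
      ((h1.const_mul |Bl|).mul_const (2 * R))
  obtain ⟨T₀, hT₀⟩ := eventually_atTop.mp (hEt.eventually (gt_mem_nhds (half_pos hε)))
  refine ⟨max T₀ 1, fun T hT => ?_⟩
  have hT1 : 1 ≤ T := (le_max_right _ _).trans hT
  have hT0 : 0 ≤ T := by linarith
  have hE := hT₀ T ((le_max_left _ _).trans hT)
  -- Cauchy's formula twice
  have hkd : Differentiable ℂ (ker R T) := by unfold ker; fun_prop
  set gT := trunc f T
  have hgT : Differentiable ℂ gT := differentiable_trunc hf hM hT0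
  have hsq : [[-R, R]] ×ℂ [[-R, R]] ⊆ (univ : Set ℂ) := subset_univ _
  have c1 := rectInt_cauchy hU (hG.mul hkd.differentiableOn) (neg_lt_zero.mpr hδ) hR hR hbox
  have c2 := rectInt_cauchy isOpen_univ (hgT.mul hkd).differentiableOn (neg_lt_zero.mpr hR) hR hR
    hsq
  have hk0 : ker R T 0 = 1 := by simp [ker]
  have hg0 : gT 0 = ∫ t in (0 : ℝ)..T, f t := by simp [gT, trunc]
  simp only [Pi.mul_apply, hk0, mul_one, rectInt] at c1 c2
  -- integrability of the pieces
  have iG : ∀ s : ℝ, |s| = R → ∀ {u v : ℝ}, u ∈ [[-δ, R]] → v ∈ [[-δ, R]] →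
      IntervalIntegrable (fun x : ℝ => G (x + s * I) * ker R T (x + s * I) * ((x : ℂ) + s * I)⁻¹)
        volume u v := fun s hs u v hu hv => by
    have hs0 : s ≠ 0 := fun h => hR.ne' (by simpa [h] using hs.symm)
    refine ContinuousOn.intervalIntegrable (ContinuousOn.mul (ContinuousOn.mul ?_
      (hkd.continuous.comp (by fun_prop)).continuousOn)
      (continuous_inv_horizontal hs0).continuousOn)
    refine hG.continuousOn.comp (by fun_prop) fun x hx => hbox ⟨?_, ?_⟩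
    · simpa using uIcc_subset_uIcc hu hv hx
    · rw [mem_preimage, uIcc_of_le (by linarith)]
      simpa [abs_le] using hs.le
  have iT : ∀ s : ℝ, |s| = R → ∀ u v : ℝ,
      IntervalIntegrable (fun x : ℝ => gT (x + s * I) * ker R T (x + s * I) * ((x : ℂ) + s * I)⁻¹)
        volume u v := fun s hs u v => by
    have hs0 : s ≠ 0 := fun h => hR.ne' (by simpa [h] using hs.symm)
    exact (((hgT.continuous.comp (by fun_prop)).mul (hkd.continuous.comp (by fun_prop))).mul
      (continuous_inv_horizontal hs0)).intervalIntegrable _ _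
  have iGv : IntervalIntegrable (fun y : ℝ => G (R + y * I) * ker R T (R + y * I) *
      ((R : ℂ) + y * I)⁻¹) volume (-R) R := by
    refine ContinuousOn.intervalIntegrable (ContinuousOn.mul (ContinuousOn.mul ?_
      (hkd.continuous.comp (by fun_prop)).continuousOn)
      (continuous_inv_vertical hR.ne').continuousOn)
    exact hG.continuousOn.comp (by fun_prop) fun y hy => hbox ⟨by simp, by simpa using hy⟩
  have iTv : IntervalIntegrable (fun y : ℝ => gT (R + y * I) * ker R T (R + y * I) *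
      ((R : ℂ) + y * I)⁻¹) volume (-R) R :=
    (((hgT.continuous.comp (by fun_prop)).mul (hkd.continuous.comp (by fun_prop))).mul
      (continuous_inv_vertical hR.ne')).intervalIntegrable _ _
  have hl : (0 : ℝ) ∈ [[-δ, R]] := by rw [uIcc_of_le (by linarith)]; constructor <;> linarith
  -- the three kinds of bounds
  have right_hor : ∀ s : ℝ, |s| = R →
      ‖(∫ x : ℝ in (0 : ℝ)..R, G (x + s * I) * ker R T (x + s * I) * ((x : ℂ) + s * I)⁻¹) -
        ∫ x : ℝ in (0 : ℝ)..R, gT (x + s * I) * ker R T (x + s * I) * ((x : ℂ) + s * I)⁻¹‖ ≤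
        3 * M / R := fun s hs => by
    rw [← intervalIntegral.integral_sub (iG s hs hl right_mem_uIcc) (iT s hs 0 R)]
    refine (intervalIntegral.norm_integral_le_of_norm_le_const (C := 3 * M / R ^ 2)
      fun x hx => ?_).trans (le_of_eq ?_)
    · rw [uIoc_of_le hR.le] at hx
      rw [← sub_mul, ← sub_mul]
      refine norm_edge_horizontal hR (by rw [abs_of_pos hx.1]; exact hx.2) hx.1.ne' hs hM0 ?_
      have := norm_transform_sub_trunc_le hf hM hT0 (z := (x : ℂ) + s * I) (by simpa using hx.1)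
      rw [← heq _ (by simpa using hx.1), show ((x : ℂ) + s * I).re = x by simp] at this
      rwa [abs_of_pos hx.1]
    · rw [sub_zero, abs_of_pos hR]; field_simp
  have left_hor : ∀ s : ℝ, |s| = R →
      ‖∫ x : ℝ in -R..(0 : ℝ), gT (x + s * I) * ker R T (x + s * I) * ((x : ℂ) + s * I)⁻¹‖ ≤
        3 * M / R := fun s hs => by
    refine (intervalIntegral.norm_integral_le_of_norm_le_const_ae (C := 3 * M / R ^ 2) ?_).trans
      (le_of_eq ?_)
    · filter_upwards [Measure.ae_ne volume (0 : ℝ)] with x hx0 hx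
      rw [uIoc_of_le (by linarith)] at hx
      have hneg : x < 0 := lt_of_le_of_ne hx.2 hx0
      refine norm_edge_horizontal hR (by rw [abs_of_neg hneg]; linarith [hx.1]) hx0 hs hM0 ?_
      have := norm_trunc_le hM hT0 (z := (x : ℂ) + s * I) (by simpa using hneg)
      rw [show ((x : ℂ) + s * I).re = x by simp] at this
      rwa [abs_of_neg hneg]
    · rw [sub_neg_eq_add, zero_add, abs_of_pos hR]; field_simp
  have small_hor : ∀ s : ℝ, |s| = R →
      ‖∫ x : ℝ in -δ..(0 : ℝ), G (x + s * I) * ker R T (x + s * I) * ((x : ℂ) + s * I)⁻¹‖ ≤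
        |Bt| / T := fun s hs => by
    refine (intervalIntegral.norm_integral_le_of_norm_le (g := fun x => |Bt| * Real.exp (T * x))
      (by linarith) (Eventually.of_forall fun x hx => ?_)
      ((by fun_prop : Continuous fun x : ℝ => |Bt| * Real.exp (T * x)).intervalIntegrable
        _ _)).trans
      ?_
    · have hb := hBt s hs x (by rw [uIcc_of_le (by linarith)]; exact ⟨hx.1.le, hx.2⟩)
      rw [ker, show G (x + s * I) * (cexp (((x : ℂ) + s * I) * T) *
          (1 + ((x : ℂ) + s * I) ^ 2 / (R : ℂ) ^ 2)) * ((x : ℂ) + s * I)⁻¹ =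
          G (x + s * I) * (1 + ((x : ℂ) + s * I) ^ 2 / (R : ℂ) ^ 2) * ((x : ℂ) + s * I)⁻¹ *
            cexp (((x : ℂ) + s * I) * T) by ring, norm_mul, Complex.norm_exp,
        show (((x : ℂ) + s * I) * T).re = T * x by simp [mul_comm] ]
      exact mul_le_mul_of_nonneg_right (hb.trans (le_abs_self _)) (Real.exp_pos _).le
    · rw [intervalIntegral.integral_const_mul,
        intervalIntegral.integral_comp_mul_left (fun t => Real.exp t) (by linarith : T ≠ 0),
        integral_exp, mul_zero, Real.exp_zero, smul_eq_mul, div_eq_mul_inv]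
      refine mul_le_mul_of_nonneg_left (mul_le_of_le_one_right (by positivity) ?_) (abs_nonneg _)
      linarith [Real.exp_pos (T * -δ)]
  have right_ver : ‖(∫ y : ℝ in -R..R, G (R + y * I) * ker R T (R + y * I) * ((R : ℂ) + y * I)⁻¹) -
      ∫ y : ℝ in -R..R, gT (R + y * I) * ker R T (R + y * I) * ((R : ℂ) + y * I)⁻¹‖ ≤
      6 * M / R := by
    rw [← intervalIntegral.integral_sub iGv iTv]
    refine (intervalIntegral.norm_integral_le_of_norm_le_const (C := 3 * M / R ^ 2)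
      fun y hy => ?_).trans (le_of_eq ?_)
    · rw [uIoc_of_le (by linarith)] at hy
      rw [← sub_mul, ← sub_mul]
      refine norm_edge_vertical hR (abs_of_pos hR) (abs_le.mpr ⟨hy.1.le, hy.2⟩) hM0 ?_
      have := norm_transform_sub_trunc_le hf hM hT0 (z := (R : ℂ) + y * I) (by simpa using hR)
      rw [← heq _ (by simpa using hR), show ((R : ℂ) + y * I).re = R by simp] at this
      exact this
    · rw [abs_of_pos (by linarith : 0 < R - -R)]; field_simp; ring
  have left_ver : ‖∫ y : ℝ in -R..R, gT ((-R : ℝ) + y * I) * ker R T ((-R : ℝ) + y * I) *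
      (((-R : ℝ) : ℂ) + y * I)⁻¹‖ ≤ 6 * M / R := by
    refine (intervalIntegral.norm_integral_le_of_norm_le_const (C := 3 * M / R ^ 2)
      fun y hy => ?_).trans (le_of_eq ?_)
    · rw [uIoc_of_le (by linarith)] at hy
      refine norm_edge_vertical hR (by rw [abs_neg, abs_of_pos hR])
        (abs_le.mpr ⟨hy.1.le, hy.2⟩) hM0 ?_
      have := norm_trunc_le hM hT0 (z := ((-R : ℝ) : ℂ) + y * I) (by simpa using hR)
      rw [show (((-R : ℝ) : ℂ) + y * I).re = -R by simp, neg_neg] at this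
      rwa [neg_neg]
    · rw [abs_of_pos (by linarith : 0 < R - -R)]; field_simp; ring
  have small_ver : ‖∫ y : ℝ in -R..R, G ((-δ : ℝ) + y * I) * ker R T ((-δ : ℝ) + y * I) *
      (((-δ : ℝ) : ℂ) + y * I)⁻¹‖ ≤ |Bl| * Real.exp (-δ * T) * (2 * R) := by
    refine (intervalIntegral.norm_integral_le_of_norm_le_const
      (C := |Bl| * Real.exp (-δ * T)) fun y hy => ?_).trans (le_of_eq ?_)
    · have hb := hBl y (uIoc_subset_uIcc hy)
      rw [ker, show ∀ a b c d : ℂ, a * (b * c) * d = a * c * d * b from fun a b c d => by ring,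
        norm_mul, Complex.norm_exp,
        show ((((-δ : ℝ) : ℂ) + y * I) * T).re = -δ * T by simp]
      exact mul_le_mul_of_nonneg_right (hb.trans (le_abs_self _)) (Real.exp_pos _).le
    · rw [abs_of_pos (by linarith : 0 < R - -R)]; ring
  -- assemble
  have hR' : |(-R : ℝ)| = R := by rw [abs_neg, abs_of_pos hR]
  rw [← intervalIntegral.integral_add_adjacent_intervals (iG (-R) hR' left_mem_uIcc hl)
      (iG (-R) hR' hl right_mem_uIcc),
    ← intervalIntegral.integral_add_adjacent_intervals (iG R (abs_of_pos hR) left_mem_uIcc hl)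
      (iG R (abs_of_pos hR) hl right_mem_uIcc)] at c1
  rw [← intervalIntegral.integral_add_adjacent_intervals (iT (-R) hR' (-R) 0) (iT (-R) hR' 0 R),
    ← intervalIntegral.integral_add_adjacent_intervals (iT R (abs_of_pos hR) (-R) 0)
      (iT R (abs_of_pos hR) 0 R)] at c2
  have b1 := right_hor (-R) hR'
  have b2 := right_hor R (abs_of_pos hR)
  have b3 := left_hor (-R) hR'
  have b4 := left_hor R (abs_of_pos hR)
  have b5 := small_hor (-R) hR'
  have b6 := small_hor R (abs_of_pos hR)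
  set p1 := ∫ x : ℝ in (0 : ℝ)..R, G (x + (-R : ℝ) * I) * ker R T (x + (-R : ℝ) * I) *
    ((x : ℂ) + (-R : ℝ) * I)⁻¹
  set q1 := ∫ x : ℝ in (0 : ℝ)..R, gT (x + (-R : ℝ) * I) * ker R T (x + (-R : ℝ) * I) *
    ((x : ℂ) + (-R : ℝ) * I)⁻¹
  set p2 := ∫ x : ℝ in (0 : ℝ)..R, G (x + R * I) * ker R T (x + R * I) * ((x : ℂ) + R * I)⁻¹
  set q2 := ∫ x : ℝ in (0 : ℝ)..R, gT (x + R * I) * ker R T (x + R * I) * ((x : ℂ) + R * I)⁻¹
  set p3 := ∫ y : ℝ in -R..R, G (R + y * I) * ker R T (R + y * I) * ((R : ℂ) + y * I)⁻¹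
  set q3 := ∫ y : ℝ in -R..R, gT (R + y * I) * ker R T (R + y * I) * ((R : ℂ) + y * I)⁻¹
  set l1 := ∫ x : ℝ in -R..(0 : ℝ), gT (x + (-R : ℝ) * I) * ker R T (x + (-R : ℝ) * I) *
    ((x : ℂ) + (-R : ℝ) * I)⁻¹
  set l2 := ∫ x : ℝ in -R..(0 : ℝ), gT (x + R * I) * ker R T (x + R * I) * ((x : ℂ) + R * I)⁻¹
  set l3 := ∫ y : ℝ in -R..R, gT ((-R : ℝ) + y * I) * ker R T ((-R : ℝ) + y * I) *
    (((-R : ℝ) : ℂ) + y * I)⁻¹
  set s1 := ∫ x : ℝ in -δ..(0 : ℝ), G (x + (-R : ℝ) * I) * ker R T (x + (-R : ℝ) * I) *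
    ((x : ℂ) + (-R : ℝ) * I)⁻¹
  set s2 := ∫ x : ℝ in -δ..(0 : ℝ), G (x + R * I) * ker R T (x + R * I) * ((x : ℂ) + R * I)⁻¹
  set s3 := ∫ y : ℝ in -R..R, G ((-δ : ℝ) + y * I) * ker R T ((-δ : ℝ) + y * I) *
    (((-δ : ℝ) : ℂ) + y * I)⁻¹
  have hmain : 2 * π * I * (gT 0 - G 0) = (l1 - (p1 - q1)) + (-s1) + (s2 - l2) + (p2 - q2) +
      (-(I * (p3 - q3))) + (-(I * l3)) + I * s3 := by linear_combination c1 - c2
  have hn : 2 * π * ‖gT 0 - G 0‖ ≤ 24 * M / R + Et T := by
    have h1 := congrArg (fun w : ℂ => ‖w‖) hmain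
    rw [norm_mul, norm_mul, norm_mul, Complex.norm_I, Complex.norm_real, Complex.norm_two,
      Real.norm_of_nonneg Real.pi_pos.le, mul_one] at h1
    have hI : ∀ w : ℂ, ‖I * w‖ = ‖w‖ := fun w => by rw [norm_mul, Complex.norm_I, one_mul]
    have h7 : ∀ a₁ a₂ a₃ a₄ a₅ a₆ a₇ : ℂ, ‖a₁ + a₂ + a₃ + a₄ + a₅ + a₆ + a₇‖ ≤
        ‖a₁‖ + ‖a₂‖ + ‖a₃‖ + ‖a₄‖ + ‖a₅‖ + ‖a₆‖ + ‖a₇‖ := fun a₁ a₂ a₃ a₄ a₅ a₆ a₇ => by
      iterate 6 refine (norm_add_le _ _).trans (add_le_add ?_ le_rfl)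
      exact le_rfl
    refine h1.trans_le ((h7 _ _ _ _ _ _ _).trans ?_)
    rw [norm_neg, norm_neg, norm_neg, hI, hI, hI]
    simp only [Et]
    have := norm_sub_le l1 (p1 - q1)
    have := norm_sub_le s2 l2
    have e : 24 * M / R = 4 * (3 * M / R) + 2 * (6 * M / R) := by ring
    have e' : 2 * |Bt| / T = |Bt| / T + |Bt| / T := by ring
    linarith
  rw [dist_eq_norm, ← hg0]
  have hpi := Real.two_le_pi
  have hMR : 24 * M / R ≤ ε / 2 := by rw [div_le_iff₀ hR]; nlinarith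
  nlinarith [norm_nonneg (gT 0 - G 0)]

end FA.PNT

end
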